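/-
P-MW, GTA-7 (row 786, sub-row of 696), helper42: `GHEqStatement`.

The Schmidt height `gH m I` of `L(m ∞ - D_I) = I ∩ W m` is the logarithmic height of the vector
of maximal minors of the rational evaluation matrix `E m` (Riemann-Roch over `ℚ` + Pluecker
duality).  Only the kernel clause of `IsPtData` is used.
-/
import Fermat.Agent.H3.MW.Interfaces

set_option autoImplicit false
set_option maxSynthPendingDepth 3

noncomputable section

open Module

namespace Fermat.Agent.H42.MW

open Fermat.Agent.H92.MW Fermat.Agent.H3.MW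

section LinAlg

variable {K : Type*} [Field K]

/-- a matrix whose kernel has dimension `n - d` has linearly independent rows -/
theorem linearIndependent_row_of_finrank_ker {d n : ℕ} (E : Matrix (Fin d) (Fin n) K)
    (h : finrank K (LinearMap.ker E.mulVecLin) + d = n) : LinearIndependent K E.row := by
  rw [linearIndependent_iff_card_eq_finrank_span, Fintype.card_fin]
  have h1 : E.rank = finrank K (Submodule.span K (Set.range E.row)) :=
    Matrix.rank_eq_finrank_span_row E
  have h2 := LinearMap.finrank_range_add_finrank_ker E.mulVecLin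
  rw [Module.finrank_fintype_fun_eq_card, Fintype.card_fin] at h2
  have h3 : E.rank = finrank K (LinearMap.range E.mulVecLin) := rfl
  have h4 : Set.finrank K (Set.range E.row) = finrank K (Submodule.span K (Set.range E.row)) :=
    rfl
  rw [h4, ← h1, h3]
  omega

end LinAlg

variable {R : Type} [CommRing R] [Algebra ℚ R] [IsDedekindDomain R]

/-- the rows of the coordinate matrix of a subspace are linearly independent -/
theorem linearIndependent_coordMatrix_row {V : Type*} [AddCommGroup V] [Module ℚ V]
    [Module.Finite ℚ V] (U : Submodule ℚ V) : LinearIndependent ℚ (coordMatrix U).row := by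
  have hb := (Module.finBasis ℚ U).linearIndependent
  have h1 := hb.map' ((Module.finBasis ℚ V).equivFun.toLinearMap.comp U.subtype) (by
    rw [LinearMap.ker_comp, LinearEquiv.ker, Submodule.comap_bot, Submodule.ker_subtype])
  exact h1

/-- **GTA-7.** -/
theorem gHEq (𝒞 : MWDatum R) (hB : BasicStatement 𝒞) (hD : PluckerDualityHeightStatement) :
    GHEqStatement 𝒞 := by
  intro I d P M E hPt hI hdeg m hm
  obtain ⟨-, -, -, -, hker, -⟩ := hPt
  have hm₀ : 𝒞.m₀ ≤ m := le_trans (Nat.le_add_left _ _) hm
  have hRR := hB.2.1 I m hI (by rw [hdeg]; exact hm)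
  have hW := 𝒞.W_finrank m hm₀
  set U : Submodule ℚ (𝒞.W m) := 𝒞.rrSpace m I with hU
  have hn : finrank ℚ U + d = finrank ℚ (𝒞.W m) := by
    rw [hdeg] at hRR
    omega
  set φ : (𝒞.W m) ≃ₗ[ℚ] (Fin (finrank ℚ (𝒞.W m)) → ℚ) :=
    (Module.finBasis ℚ (𝒞.W m)).equivFun with hφ
  have hcoord : ∀ w : 𝒞.W m, coordVec 𝒞 m w = φ w := fun w => rfl
  have hmemU : ∀ w : 𝒞.W m, w ∈ U ↔ (w : R) ∈ I := fun w => Iff.rfl
  -- the kernel of `E m`
  have hkerE : LinearMap.ker (E m).mulVecLin = U.map φ.toLinearMap := by
    ext v
    rw [LinearMap.mem_ker, Matrix.mulVecLin_apply, Submodule.mem_map]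
    constructor
    · intro hv
      refine ⟨φ.symm v, ?_, by simp⟩
      rw [hmemU, ← hker m (φ.symm v), hcoord, LinearEquiv.apply_symm_apply]
      exact hv
    · rintro ⟨w, hw, rfl⟩
      have := (hker m w).mpr ((hmemU w).mp hw)
      rwa [hcoord] at this
  have hfk : finrank ℚ (LinearMap.ker (E m).mulVecLin) = finrank ℚ U := by
    rw [hkerE]
    exact LinearEquiv.finrank_map_eq φ U
  have hErow : LinearIndependent ℚ (E m).row :=
    linearIndependent_row_of_finrank_ker (E m) (by rw [hfk]; exact hn)
  refine ⟨hErow, ?_⟩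
  -- Pluecker duality
  have hA : LinearIndependent ℚ (coordMatrix U).row := linearIndependent_coordMatrix_row U
  have hEA : E m * (coordMatrix U).transpose = 0 := by
    ext a i
    have h1 : (E m * (coordMatrix U).transpose) a i =
        ((E m).mulVec (coordVec 𝒞 m ((Module.finBasis ℚ U i : U) : 𝒞.W m))) a := by
      rw [Matrix.mul_apply]
      rfl
    rw [h1, (hker m _).mpr ((hmemU _).mp (Module.finBasis ℚ U i).2)]
    rfl
  exact hD (finrank ℚ U) d (finrank ℚ (𝒞.W m)) hn (coordMatrix U) (E m) hA hErow hEA

end Fermat.Agent.H42.MW
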